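import Mathlib.Order.Filter.Ultrafilter.Basic
import Mathlib.Order.Filter.CountableInter
import Mathlib.SetTheory.Cardinal.Aleph
import Fermat.Agent.Coanalytic.Levels

/-!
# Homogeneous sets from a countably complete ultrafilter

For countably many colourings of finite subsets with countably many colours, a nonprincipal
countably complete ultrafilter gives an increasing sequence of length `ω₁` on which each colouring
only depends on the size of the subset.  No normality is needed.
-/

set_option autoImplicit false

universe w z

namespace FA.AnalyticDeterminacy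

open Set Filter Cardinal
open scoped Ordinal

variable {K : Type w} {U : Ultrafilter K} [CountableInterFilter (U : Filter K)]

/-- A countably colouring is constant on a large set. -/
theorem exists_eventually_eq {C : Type z} [Countable C] (g : K → C) :
    ∃ c, ∀ᶠ a in (U : Filter K), g a = c := by
  by_contra h
  have h' : ∀ c, ∀ᶠ a in (U : Filter K), g a ≠ c := fun c =>
    Ultrafilter.eventually_not.2 (not_exists.1 h c)
  obtain ⟨a, ha⟩ := ((eventually_countable_forall (p := fun a c => g a ≠ c)).2 h').exists
  exact ha (g a) rfl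

omit [CountableInterFilter (U : Filter K)] in
/-- A large set in which everything has a large set above it. -/
theorem exists_unbounded [LinearOrder K] [WellFoundedLT K] (hU : ∀ a, {a} ∉ U) :
    ∃ S ∈ U, ∀ a ∈ S, Ioi a ∈ U := by
  have key : ∀ a, Iio a ∉ U → Ioi a ∈ U := fun a ha => by
    refine mem_of_superset (inter_mem (Ultrafilter.compl_mem_iff_notMem.2 ha)
      (Ultrafilter.compl_mem_iff_notMem.2 (hU a))) fun b hb => ?_
    exact lt_of_le_of_ne (not_lt.1 hb.1) (Ne.symm hb.2)
  by_cases h : ∃ b, Iio b ∈ U
  · obtain ⟨b, hb, hmin⟩ := (wellFounded_lt (α := K)).has_min {b | Iio b ∈ U} h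
    exact ⟨Iio b, hb, fun a ha => key a fun ha' => hmin a ha' ha⟩
  · exact ⟨univ, univ_mem, fun a _ => key a fun ha => h ⟨a, ha⟩⟩

variable [LinearOrder K] [WellFoundedLT K] {C : Type z} [Countable C]

variable (U) in
/-- The colour of almost all extensions, `j` entries later. -/
noncomputable def reduceColour (f : List K → C) : ℕ → List K → C
  | 0, l => f l
  | j + 1, l => (exists_eventually_eq (U := U) fun a => reduceColour f j (a :: l)).choose

omit [LinearOrder K] [WellFoundedLT K] in
theorem eventually_reduceColour (f : List K → C) (j : ℕ) (l : List K) :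
    ∀ᶠ a in (U : Filter K), reduceColour U f j (a :: l) = reduceColour U f (j + 1) l :=
  (exists_eventually_eq (U := U) fun a => reduceColour U f j (a :: l)).choose_spec

/-- **Homogeneous sequences.** -/
theorem exists_homogeneous (hU : ∀ a, {a} ∉ U) {ι : Type*} [Countable ι]
    (f : ι → List K → C) :
    ∃ a : Iio (ω₁ : Ordinal.{0}) → K, StrictMono a ∧
      ∀ (i : ι) (l : List K), l.Pairwise (· > ·) → (∀ b ∈ l, b ∈ range a) →
        f i l = reduceColour U (f i) l.length [] := by
  classical
  obtain ⟨S, hS, hSU⟩ := exists_unbounded hU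
  have hne : Nonempty K := ⟨(U.nonempty_of_mem hS).choose⟩
  let Next : Set K → K → Prop := fun P a => a ∈ S ∧ (∀ p ∈ P, p < a) ∧
    ∀ (i : ι) (j : ℕ) (l : List P), reduceColour U (f i) j (a :: l.map Subtype.val) =
      reduceColour U (f i) (j + 1) (l.map Subtype.val)
  have hnext : ∀ P : Set K, P.Countable → P ⊆ S → ∃ a, Next P a := fun P hP hPS => by
    have : Countable P := hP.to_subtype
    have h1 : ∀ᶠ a in (U : Filter K), ∀ p : P, (p : K) < a :=
      eventually_countable_forall.2 fun p => hSU p (hPS p.2)
    have h2 : ∀ᶠ a in (U : Filter K), ∀ q : ι × ℕ × List P,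
        reduceColour U (f q.1) q.2.1 (a :: q.2.2.map Subtype.val) =
          reduceColour U (f q.1) (q.2.1 + 1) (q.2.2.map Subtype.val) :=
      eventually_countable_forall.2 fun q => eventually_reduceColour _ _ _
    obtain ⟨a, ha, ha1, ha2⟩ := (Filter.Eventually.and hS (h1.and h2)).exists
    exact ⟨a, ha, fun p hp => ha1 ⟨p, hp⟩, fun i j l => ha2 (i, j, l)⟩
  let pick : Set K → K := fun P => Classical.epsilon (Next P)
  let a : Iio (ω₁ : Ordinal.{0}) → K := (IsWellFounded.wf (r := (· < ·))).fix
    fun α rec => pick (range fun β : Iio α => rec β.1 β.2)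
  have ha : ∀ α, a α = pick (range fun β : Iio α => a β.1) := fun α =>
    WellFounded.fix_eq _ _ α
  have hspec : ∀ α, Next (range fun β : Iio α => a β.1) (a α) := by
    intro α
    induction α using WellFoundedLT.induction with
    | ind α ih =>
      rw [ha α]
      have : Countable (Iio α.1) := Coanalytic.countable_Iio_of_lt α.2
      have : Countable (Iio α) := Function.Injective.countable
        (f := fun β : Iio α => (⟨β.1.1, β.2⟩ : Iio α.1)) fun β γ h =>
          Subtype.ext (Subtype.ext (congrArg (fun t : Iio α.1 => t.1) h))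
      exact Classical.epsilon_spec (hnext _ (countable_range _) (by
        rintro _ ⟨β, rfl⟩
        exact (ih β.1 β.2).1))
  have hmono : StrictMono a := fun β α h => (hspec α).2.1 _ ⟨⟨β, h⟩, rfl⟩
  refine ⟨a, hmono, fun i l hl hla => ?_⟩
  suffices ∀ j, reduceColour U (f i) j l = reduceColour U (f i) (j + l.length) [] by
    simpa [reduceColour] using this 0
  induction l with
  | nil => simp
  | cons b l ih =>
    intro j
    obtain ⟨α, rfl⟩ := hla b List.mem_cons_self
    rw [List.pairwise_cons] at hl
    have hP : ∀ c ∈ l, c ∈ range fun β : Iio α => a β.1 := fun c hc => by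
      obtain ⟨β, rfl⟩ := hla c (List.mem_cons_of_mem _ hc)
      exact ⟨⟨β, hmono.lt_iff_lt.1 (hl.1 _ hc)⟩, rfl⟩
    obtain ⟨l', rfl⟩ : ∃ l' : List (range fun β : Iio α => a β.1), l'.map Subtype.val = l :=
      ⟨l.attach.map fun c => ⟨c.1, hP c.1 c.2⟩, by simp [List.map_map, Function.comp_def]⟩
    rw [(hspec α).2.2 i j l', ih hl.2 (fun c hc => hla c (List.mem_cons_of_mem _ hc)) (j + 1),
      List.length_cons]
    congr 1
    omega

end FA.AnalyticDeterminacy
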