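import Fermat.Agent.AnalyticDeterminacy.Order
import Fermat.Agent.AnalyticDeterminacy.Homogeneous
import Mathlib.Data.List.Sort

/-!
# The auxiliary game

The player who is to make a relation well-founded names, along with the moves, the images of the
natural numbers in a well-order which carries a countably complete ultrafilter.  That game is
determined by Gale and Stewart, and either winning strategy gives one for the original game.
-/

set_option autoImplicit false

universe u w

namespace FA.AnalyticDeterminacy

open Set Determinacy Filter MeasureTheory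
open scoped Ordinal

variable {A : Type u} {K : Type w}

/-- The first moves of a play with second components given by a rule. -/
def augment (g : List (A × K) → ℕ → K) (x : ℕ → A) : ℕ → List (A × K)
  | 0 => []
  | m + 1 => augment g x m ++ [(x m, g (augment g x m) m)]

/-- The play with second components given by a rule. -/
def augPlay (g : List (A × K) → ℕ → K) (x : ℕ → A) (n : ℕ) : A × K :=
  (x n, g (augment g x n) n)

theorem pre_augPlay (g : List (A × K) → ℕ → K) (x : ℕ → A) (n : ℕ) :
    pre (augPlay g x) n = augment g x n := by
  induction n with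
  | zero => rfl
  | succ n ih => rw [pre_succ, ih]; rfl

theorem augment_congr {g g' : List (A × K) → ℕ → K} {x x' : ℕ → A} {n : ℕ}
    (hx : ∀ m < n, x m = x' m) (hg : ∀ p, ∀ m < n, g p m = g' p m) :
    augment g x n = augment g' x' n := by
  induction n with
  | zero => rfl
  | succ n ih =>
    simp only [augment]
    rw [ih (fun m hm => hx m (hm.trans n.lt_succ_self))
      fun p m hm => hg p m (hm.trans n.lt_succ_self),
      hx n n.lt_succ_self, hg _ n n.lt_succ_self]

theorem getD_pre (x : ℕ → A) (a₀ : A) {m n : ℕ} (h : m < n) : (pre x n).getD m a₀ = x m := by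
  simp [pre, h]

/-- The move at which player `P` labels the number `i`. -/
def labelMove (P : Bool) (i : ℕ) : ℕ :=
  2 * i + if P then 0 else 1

theorem moves_labelMove (P : Bool) (i : ℕ) : Moves P (labelMove P i) := by
  cases P <;> simp [labelMove, Moves]

theorem labelMove_div_two (P : Bool) (i : ℕ) : labelMove P i / 2 = i := by
  unfold labelMove
  split <;> omega

/-- The numbers below `n` in descending order. -/
theorem exists_descending_range {β : Type*} [LinearOrder β] {k : ℕ → β} (hk : Function.Injective k)
    (n : ℕ) : ∃ π : List ℕ, π.length = n ∧ (∀ i < n, i ∈ π) ∧ (∀ i ∈ π, i < n) ∧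
      π.Pairwise fun i j => k j < k i := by
  classical
  refine ⟨(List.range n).mergeSort (fun i j => decide (k j ≤ k i)), by simp, by simp, by simp, ?_⟩
  have h := List.pairwise_mergeSort (le := fun i j => decide (k j ≤ k i))
    (fun a b c => by simpa using fun h1 h2 => le_trans h2 h1)
    (fun a b => by simpa using le_total (k b) (k a)) (List.range n)
  have hnd : ((List.range n).mergeSort (fun i j => decide (k j ≤ k i))).Nodup :=
    (List.mergeSort_perm _ _).nodup_iff.2 List.nodup_range
  refine (h.and hnd).imp fun {a b} h => ?_
  exact lt_of_le_of_ne (by simpa using h.1) fun he => h.2 (hk he).symm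

variable [LinearOrder K]

/-- Player `P` has to label the numbers by a well-order, respecting the relations of the play. -/
def labelled (Q : List ℕ → List A → Prop) (P : Bool) : Set (ℕ → A × K) :=
  {y | ∀ i j, kbRel Q (Prod.fst ∘ y) i j → (y (labelMove P i)).2 < (y (labelMove P j)).2}

theorem kbRel_congr {Q : List ℕ → List A → Prop} {x x' : ℕ → A} {i j n : ℕ} (hi : i ≤ n)
    (hj : j ≤ n) (h : pre x n = pre x' n) : kbRel Q x i j ↔ kbRel Q x' i j := by
  unfold kbRel
  rw [← take_pre x hi, ← take_pre x hj, h, take_pre x' hi, take_pre x' hj]

theorem isOpenOn_compl_labelled (Q : List ℕ → List A → Prop) (P : Bool)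
    (T : GameTree (A × K)) : IsOpenOn T (labelled Q P)ᶜ := by
  intro y _ hy
  simp only [labelled, mem_compl_iff, mem_ofPred_eq, not_forall] at hy
  obtain ⟨i, j, hij, hlt⟩ := hy
  refine ⟨labelMove P i + labelMove P j + 1, fun z _ hz hzl => hlt ?_⟩
  have hm : ∀ m < labelMove P i + labelMove P j + 1, z m = y m := fun m hm => by
    simpa [pre] using List.getElem_of_eq hz (i := m) (by simpa using hm)
  have hn : ∀ k, k ≤ labelMove P k := fun k => by unfold labelMove; omega
  have h := hzl i j ((kbRel_congr (n := labelMove P i + labelMove P j + 1)
    ((hn i).trans (by omega)) ((hn j).trans (by omega))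
    (by rw [← map_pre, ← map_pre, hz])).2 hij)
  rwa [hm _ (by omega), hm _ (by omega)] at h

variable [WellFoundedLT K] {U : Ultrafilter K} [CountableInterFilter (U : Filter K)]

/-- **The transfer.** If a player wins exactly the plays whose relation is well-founded, the game
is determined. -/
theorem determined_of_kbRel [Countable A] [Nonempty A] (hU : ∀ a, {a} ∉ U)
    (Q : List ℕ → List A → Prop) (P : Bool) {X : Set (ℕ → A)}
    (hX : ∀ x, (x ∈ X ↔ P = true) ↔ WellFounded (kbRel Q x)) :
    Determined (GameTree.univ A) X := by
  classical
  obtain ⟨a₀⟩ := ‹Nonempty A›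
  obtain ⟨k₀, -⟩ := U.nonempty_of_mem univ_mem
  have : Nonempty K := ⟨k₀⟩
  let T := GameTree.univ (A × K)
  let Y : Set (ℕ → A × K) := {y | y ∈ labelled Q P ↔ P = true}
  obtain ⟨P', σ, -, hσ⟩ : Determined T Y := determined_of_isOpenOn (!P) (by
    convert isOpenOn_compl_labelled Q P T using 1
    ext y
    cases P <;> simp [Y])
  have hbody : ∀ y : ℕ → A × K, y ∈ T.body := fun y => by
    rw [GameTree.body_univ]
    trivial
  by_cases hP : P' = P
  · -- the labelling player wins
    subst hP
    let g : List (A × K) → ℕ → K := fun p m => if Moves P' m then (σ p).2 else k₀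
    let τ : List A → A := fun q => (σ (augment g (fun i => q.getD i a₀) q.length)).1
    refine ⟨P', τ, fun _ _ _ => trivial, fun x _ hx => ?_⟩
    have hy : Consistent P' σ (augPlay g x) := fun n hn => by
      rw [pre_augPlay]
      refine Prod.ext ?_ (by simp [augPlay, g, hn])
      change x n = _
      rw [hx n hn]
      simp only [τ, length_pre]
      rw [augment_congr (fun m hm => getD_pre x a₀ hm) fun _ _ _ => rfl]
    have hl : augPlay g x ∈ labelled Q P' := by
      have := hσ _ (hbody _) hy
      cases P' <;> simpa [Y] using this
    exact (hX x).2 (Subrelation.wf (fun {i j} h => hl i j h)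
      (InvImage.wf (fun i => (augPlay g x (labelMove P' i)).2) wellFounded_lt))
  · -- the other player wins
    have hP' : P' = !P := by cases P <;> cases P' <;> simp_all
    subst hP'
    let label : List ℕ → List K → ℕ → K := fun π l i => l.getD (π.idxOf i) k₀
    let g : (ℕ → K) → List (A × K) → ℕ → K := fun ℓ p m =>
      if Moves P m then ℓ (m / 2) else (σ p).2
    let f : List A × List ℕ → List K → A := fun q l =>
      (σ (augment (g (label q.2 l)) (fun i => q.1.getD i a₀) q.1.length)).1
    obtain ⟨a, ha, hhom⟩ := exists_homogeneous hU f
    choose π hlen hmem hlt hdesc using fun q : List A =>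
      exists_descending_range (key_injective Q q) q.length
    let τ : List A → A := fun q => reduceColour U (f (q, π q)) q.length []
    refine ⟨!P, τ, fun _ _ _ => trivial, fun x _ hx => ?_⟩
    suffices hwf : ¬WellFounded (kbRel Q x) by
      have h := (not_congr (hX x)).2 hwf
      cases P <;> simp at h ⊢ <;> exact h
    intro hwf
    have hwo : IsWellOrder ℕ (kbRel Q x) :=
      { wf := hwf
        trichotomous := fun i j h1 h2 =>
          ((trichotomous_kbRel x i j).resolve_left h1).resolve_right h2 }
    have hω : Ordinal.type (kbRel Q x) < ω₁ := by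
      rw [Cardinal.lt_omega_iff_card_lt, Ordinal.card_type, Cardinal.lt_aleph_one_iff]
      exact Cardinal.mk_le_aleph0
    let ord : ℕ → Iio (ω₁ : Ordinal.{0}) := fun i =>
      ⟨Ordinal.typein (kbRel Q x) i, (Ordinal.typein_lt_type _ i).trans hω⟩
    let ℓ : ℕ → K := fun i => a (ord i)
    have hℓ : ∀ i j, kbRel Q x i j → ℓ i < ℓ j := fun i j h =>
      ha (Subtype.mk_lt_mk.2 ((Ordinal.typein_lt_typein _).2 h))
    have hy : Consistent (!P) σ (augPlay (g ℓ) x) := fun n hn => by
      rw [pre_augPlay]
      refine Prod.ext ?_ (by simp [augPlay, g, moves_not.1 hn])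
      change x n = _
      rw [hx n hn]
      simp only [τ, length_pre]
      have hp := hdesc (pre x n)
      have hl : ((π (pre x n)).map ℓ).Pairwise (· > ·) := by
        refine List.pairwise_map.2 (hp.imp_of_mem fun {i j} hi hj h => hℓ j i ?_)
        have hi' : i ≤ n := by simpa using (hlt _ i hi).le
        have hj' : j ≤ n := by simpa using (hlt _ j hj).le
        rwa [key_eq x hi', key_eq x hj'] at h
      have := hhom (pre x n, π (pre x n)) _ hl fun b hb => by
        obtain ⟨i, -, rfl⟩ := List.mem_map.1 hb
        exact ⟨ord i, rfl⟩
      rw [List.length_map, hlen, length_pre] at this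
      rw [← this]
      simp only [f, length_pre]
      rw [augment_congr (fun m hm => getD_pre x a₀ hm) fun p m hm => ?_]
      simp only [g]
      split_ifs with hmv
      · have hi : m / 2 < n := by omega
        have := hmem (pre x n) (m / 2) (by simpa using hi)
        simp only [label]
        rw [List.getD_eq_getElem _ _ (by simpa using List.idxOf_lt_length_of_mem this),
          List.getElem_map, List.getElem_idxOf]
      · rfl
    have hlab : augPlay (g ℓ) x ∈ labelled Q P := fun i j h => by
      simp only [augPlay, g, moves_labelMove, labelMove_div_two, if_true]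
      exact hℓ i j h
    have := hσ _ (hbody _) hy
    cases P <;> simp [Y, hlab] at this

end FA.AnalyticDeterminacy
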