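import Fermat.Agent.Coanalytic.Normal
import Fermat.Agent.Determinacy.Games
import Mathlib.Logic.Denumerable
import Mathlib.Order.PiLex
import Mathlib.Data.Sum.Order
import Mathlib.Order.WithBot

/-!
# Linear orders from analytic sets

For an analytic set of sequences in a discrete space, each sequence gets a linear order of the
natural numbers, the Kleene–Brouwer order of its tree, such that the comparison of numbers below
`n` is known from the first `n` terms, and which is a well-order exactly outside the set.
-/

set_option autoImplicit false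

universe u

namespace FA.AnalyticDeterminacy

open Set MeasureTheory Determinacy Coanalytic

variable {A : Type u}

/-- An analytic set in a product of discrete spaces is given by a tree of pairs. -/
theorem exists_prefix_scheme [TopologicalSpace A] [DiscreteTopology A] {X : Set (ℕ → A)}
    (hX : AnalyticSet X) :
    ∃ Q : List ℕ → List A → Prop,
      ∀ x, x ∈ X ↔ ∃ y : ℕ → ℕ, ∀ n, Q (initSeg y n) (pre x n) := by
  rw [AnalyticSet] at hX
  rcases hX with rfl | ⟨φ, hφ, rfl⟩
  · exact ⟨fun _ _ => False, fun x => by simp⟩
  refine ⟨fun t p => ∃ z ∈ cyl t, pre (φ z) p.length = p, fun x => ⟨?_, ?_⟩⟩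
  · rintro ⟨y, rfl⟩
    refine ⟨y, fun n => ⟨y, ?_, by rw [length_pre]⟩⟩
    rw [cyl_initSeg]
    exact PiNat.self_mem_cylinder y n
  · rintro ⟨y, hy⟩
    refine ⟨y, funext fun i => ?_⟩
    have hop : IsOpen {z | φ z i = φ y i} :=
      (isOpen_discrete {φ y i}).preimage ((continuous_apply i).comp hφ)
    obtain ⟨n, hn⟩ := exists_cylinder_subset hop (show φ y i = φ y i from rfl)
    obtain ⟨z, hz, hzx⟩ := hy (max n (i + 1))
    rw [cyl_initSeg] at hz
    rw [length_pre] at hzx
    refine (hn (PiNat.cylinder_anti y (le_max_left _ _) hz)).symm.trans ?_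
    simpa [pre] using List.getElem_of_eq hzx (i := i) (by simp)

variable {Q : List ℕ → List A → Prop}

/-- The node `t` belongs to the tree of a sequence beginning with `p`. -/
def InTree (Q : List ℕ → List A → Prop) (p : List A) (t : List ℕ) : Prop :=
  ∀ i ≤ t.length, Q (t.take i) (p.take i)

/-- A list continued by largest entries. -/
def padded (t : List ℕ) : Lex (ℕ → WithTop ℕ) :=
  toLex fun i => (t[i]?).elim ⊤ fun a : ℕ => (a : WithTop ℕ)

theorem ofLex_padded (t : List ℕ) (i : ℕ) :
    ofLex (padded t) i = (t[i]?).elim ⊤ fun a : ℕ => (a : WithTop ℕ) :=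
  rfl

theorem padded_injective : Function.Injective padded := fun t t' h => List.ext_getElem? fun i => by
  have := congrFun (congrArg ofLex h) i
  rw [ofLex_padded, ofLex_padded] at this
  cases ht : t[i]? <;> cases ht' : t'[i]? <;> simp_all

theorem padded_eq_top {t : List ℕ} {i : ℕ} : ofLex (padded t) i = ⊤ ↔ t.length ≤ i := by
  rw [ofLex_padded]
  cases h : t[i]? with
  | none => simpa using h
  | some a =>
    have := (List.getElem?_eq_some_iff.1 h).1
    simp [this.not_ge]

theorem padded_lt_of_prefix {t t' : List ℕ} (h : t <+: t') (hne : t.length < t'.length) :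
    padded t' < padded t := by
  obtain ⟨r, rfl⟩ := h
  refine ⟨t.length, fun j hj => ?_, ?_⟩
  · show ofLex (padded _) j = ofLex (padded _) j
    rw [ofLex_padded, ofLex_padded, List.getElem?_append_left hj]
  · show ofLex (padded _) t.length < ofLex (padded _) t.length
    rw [padded_eq_top.2 le_rfl, lt_top_iff_ne_top, Ne, padded_eq_top]
    exact hne.not_ge

/-- A descending sequence of padded lists settles entry by entry on a sequence of numbers. -/
theorem exists_limit {t : ℕ → List ℕ} (ht : ∀ k, padded (t (k + 1)) < padded (t k)) :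
    ∃ y : ℕ → ℕ, ∀ n, ∃ M, ∀ k, M ≤ k → initSeg y n <+: t k := by
  have hev : ∀ i, ∃ v M, ∀ k, M ≤ k → ofLex (padded (t k)) i = v := by
    intro i
    induction i using Nat.strong_induction_on with
    | h i ih =>
      choose v M hM using ih
      obtain ⟨N, hN⟩ : ∃ N, ∀ j (hj : j < i), M j hj ≤ N :=
        ⟨(Finset.range i).attach.sup fun j => M j.1 (Finset.mem_range.1 j.2), fun j hj =>
          Finset.le_sup (f := fun j : {x // x ∈ Finset.range i} => M j.1 (Finset.mem_range.1 j.2))
            (Finset.mem_attach _ ⟨j, Finset.mem_range.2 hj⟩)⟩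
      have hanti : ∀ k, N ≤ k → ofLex (padded (t (k + 1))) i ≤ ofLex (padded (t k)) i := by
        intro k hk
        obtain ⟨l, heq, hlt⟩ := ht k
        rcases lt_trichotomy l i with h | rfl | h
        · exact absurd ((hM l h (k + 1) ((hN l h).trans (by omega))).trans
            (hM l h k ((hN l h).trans hk)).symm) hlt.ne
        · exact hlt.le
        · exact (heq i h).le
      obtain ⟨_, ⟨m, rfl⟩, hmin⟩ := (wellFounded_lt (α := WithTop ℕ)).has_min
        (range fun k => ofLex (padded (t (N + k))) i) (range_nonempty _)
      refine ⟨_, N + m, fun k hk => le_antisymm ?_ (not_lt.1 (hmin _ ⟨k - N, rfl⟩) |>.trans_eq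
        (by simp [Nat.add_sub_cancel' (by omega : N ≤ k)]))⟩
      exact Nat.le_induction le_rfl (fun l hl ih => (hanti l (by omega)).trans ih) k hk
  choose v M hM using hev
  -- the list being lengthened for ever, no entry of the limit is the largest
  have hv : ∀ i, v i ≠ ⊤ := by
    intro i hi
    let N := (Finset.range (i + 1)).sup M
    have hlen : ∀ k, N ≤ k → (t k).length ≤ i := fun k hk => padded_eq_top.1
      ((hM i k ((Finset.le_sup (f := M) (by simp)).trans hk)).trans hi)
    refine (ht N).ne (congrArg toLex (funext fun j => ?_))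
    show ofLex (padded _) j = ofLex (padded _) j
    by_cases hj : j < i + 1
    · have := (Finset.le_sup (f := M) (Finset.mem_range.2 hj) : M j ≤ N)
      rw [hM j _ (by omega), hM j _ this]
    · rw [padded_eq_top.2 ((hlen (N + 1) (by omega)).trans (by omega)),
        padded_eq_top.2 ((hlen N le_rfl).trans (by omega))]
  choose y hy using fun i => WithTop.ne_top_iff_exists.1 (hv i)
  refine ⟨y, fun n => ⟨(Finset.range n).sup M, fun k hk => ?_⟩⟩
  have hget : ∀ i < n, (t k)[i]? = some (y i) := fun i hi => by
    have h := hM i k ((Finset.le_sup (f := M) (Finset.mem_range.2 hi)).trans hk)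
    rw [ofLex_padded, ← hy i] at h
    cases ht : (t k)[i]? with
    | none => simp [ht] at h
    | some a => simpa [ht] using h
  have hlen : n ≤ (t k).length := by
    rcases n with _ | n
    · exact Nat.zero_le _
    · exact (List.getElem?_eq_some_iff.1 (hget n (Nat.lt_succ_self n))).1
  rw [List.prefix_iff_eq_take]
  refine List.ext_getElem (by simp [initSeg, hlen]) fun i h1 h2 => ?_
  have hi : i < n := by simpa [initSeg] using h1
  simp only [initSeg, List.getElem_map, List.getElem_range, List.getElem_take]
  exact ((List.getElem?_eq_some_iff.1 (hget i hi)).2).symm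

open Classical in
/-- The position of a number in the order: the numbers outside the tree come first. -/
noncomputable def key (Q : List ℕ → List A → Prop) (p : List A) (n : ℕ) :
    Lex (ℕ ⊕ Lex (ℕ → WithTop ℕ)) :=
  toLex (if InTree Q p (Denumerable.ofNat (List ℕ) n) then
    Sum.inr (padded (Denumerable.ofNat (List ℕ) n)) else Sum.inl n)

theorem key_injective (Q : List ℕ → List A → Prop) (p : List A) :
    Function.Injective (key Q p) := fun m n h => by
  unfold key at h
  split_ifs at h <;> simp at h
  · simpa using congrArg Encodable.encode (padded_injective h)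
  · exact h

theorem length_ofNat_le (n : ℕ) : (Denumerable.ofNat (List ℕ) n).length ≤ n :=
  (Encodable.length_le_encode _).trans_eq (Denumerable.encode_ofNat n)

theorem inTree_congr (x : ℕ → A) {t : List ℕ} {m n : ℕ} (hm : t.length ≤ m) (hn : t.length ≤ n) :
    InTree Q (pre x m) t ↔ InTree Q (pre x n) t := by
  refine forall₂_congr fun i hi => ?_
  rw [take_pre x (hi.trans hm), take_pre x (hi.trans hn)]

/-- The order of numbers below `n` is known from `n` terms. -/
theorem key_eq (x : ℕ → A) {i m : ℕ} (h : i ≤ m) :
    key Q (pre x m) i = key Q (pre x i) i := by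
  unfold key
  rw [show InTree Q (pre x m) (Denumerable.ofNat (List ℕ) i) ↔
    InTree Q (pre x i) (Denumerable.ofNat (List ℕ) i) from
      inTree_congr x ((length_ofNat_le i).trans h) (length_ofNat_le i)]

/-- The Kleene–Brouwer relation of a sequence. -/
def kbRel (Q : List ℕ → List A → Prop) (x : ℕ → A) (m n : ℕ) : Prop :=
  key Q (pre x m) m < key Q (pre x n) n

theorem trichotomous_kbRel (x : ℕ → A) (m n : ℕ) :
    kbRel Q x m n ∨ m = n ∨ kbRel Q x n m := by
  rcases lt_trichotomy (key Q (pre x m) m) (key Q (pre x n) n) with h | h | h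
  · exact .inl h
  · refine .inr (.inl (key_injective Q (pre x (max m n)) ?_))
    rwa [key_eq x (le_max_left m n), key_eq x (le_max_right m n)]
  · exact .inr (.inr h)

/-- The relation is well-founded exactly when the tree has no branch. -/
theorem wellFounded_kbRel_iff (x : ℕ → A) :
    WellFounded (kbRel Q x) ↔ ¬∃ y : ℕ → ℕ, ∀ n, Q (initSeg y n) (pre x n) := by
  classical
  constructor
  · rintro hwf ⟨y, hy⟩
    let f : ℕ → ℕ := fun k => Encodable.encode (initSeg y k)
    have hmem : ∀ k m, k ≤ m → InTree Q (pre x m) (initSeg y k) := fun k m hkm i hi => by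
      have hik : i ≤ k := by simpa [initSeg] using hi
      rw [take_pre x (hik.trans hkm),
        show (initSeg y k).take i = initSeg y i by simp [initSeg, ← List.map_take, hik]]
      exact hy i
    obtain ⟨_, ⟨k, rfl⟩, hmin⟩ := hwf.has_min (range f) (range_nonempty _)
    refine hmin _ ⟨k + 1, rfl⟩ ?_
    have hle : ∀ j, j ≤ f j := fun j => by
      simpa [initSeg, f] using Encodable.length_le_encode (initSeg y j)
    unfold kbRel key
    simp only [f, Denumerable.ofNat_encode]
    rw [if_pos (hmem _ _ (hle (k + 1))), if_pos (hmem _ _ (hle k))]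
    refine Sum.Lex.inr (padded_lt_of_prefix ?_ (by simp [initSeg]))
    rw [initSeg_succ]
    exact List.prefix_append _ _
  · intro hno
    rw [wellFounded_iff_isEmpty_descending_chain]
    refine ⟨fun ⟨g, hg⟩ => hno ?_⟩
    let t : ℕ → List ℕ := fun k => Denumerable.ofNat (List ℕ) (g k)
    -- eventually all are in the tree
    have hdown : ∀ k, InTree Q (pre x (g (k + 1))) (t (k + 1)) → InTree Q (pre x (g k)) (t k) := by
      intro k h
      by_contra h'
      have := hg k
      unfold kbRel key at this
      rw [if_pos h, if_neg h'] at this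
      exact Sum.lex_inr_inl this
    by_cases hall : ∀ k, InTree Q (pre x (g k)) (t k)
    · have hlt : ∀ k, padded (t (k + 1)) < padded (t k) := fun k => by
        have := hg k
        unfold kbRel key at this
        rw [if_pos (hall _), if_pos (hall _)] at this
        exact Sum.lex_inr_inr.1 this
      obtain ⟨y, hy⟩ := exists_limit hlt
      refine ⟨y, fun n => ?_⟩
      obtain ⟨M, hM⟩ := hy n
      have hp := hM M le_rfl
      have hlen : n ≤ (t M).length := by simpa [initSeg] using hp.length_le
      have := hall M n hlen
      have e := List.prefix_iff_eq_take.1 hp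
      rw [show (initSeg y n).length = n by simp [initSeg]] at e
      rwa [take_pre x (hlen.trans (length_ofNat_le _)), ← e] at this
    · push Not at hall
      obtain ⟨k, hk⟩ := hall
      have hout : ∀ m, k ≤ m → ¬InTree Q (pre x (g m)) (t m) := fun m hm => by
        induction hm with
        | refl => exact hk
        | step _ ih => exact fun h => ih (hdown _ h)
      have hlt : ∀ m, g (k + (m + 1)) < g (k + m) := fun m => by
        have := hg (k + m)
        unfold kbRel key at this
        rw [if_neg (hout _ (by omega)), if_neg (hout _ (by omega))] at this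
        exact Sum.lex_inl_inl.1 this
      obtain ⟨_, ⟨m, rfl⟩, hmin⟩ := (wellFounded_lt (α := ℕ)).has_min
        (range fun m => g (k + m)) (range_nonempty _)
      exact (hmin _ ⟨m + 1, rfl⟩ (hlt m)).elim

/-- **Linear orders from an analytic set.** -/
theorem exists_order_scheme [TopologicalSpace A] [DiscreteTopology A] {X : Set (ℕ → A)}
    (hX : AnalyticSet X) :
    ∃ Q : List ℕ → List A → Prop, ∀ x, x ∈ X ↔ ¬WellFounded (kbRel Q x) := by
  obtain ⟨Q, hQ⟩ := exists_prefix_scheme hX
  exact ⟨Q, fun x => by rw [hQ, wellFounded_kbRel_iff, not_not]⟩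

end FA.AnalyticDeterminacy
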